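import Fermat.Agent.ThreePrimes.Exponential
import Mathlib.Analysis.SpecialFunctions.Trigonometric.Bounds

/-!
# Points avoiding an interval have a large exponential sum

If `‖x i‖ ≥ 1/(2 m)` for the `i` of a finite set then its size is
`O (∑_{1 ≤ h ≤ 2 m} |∑ e (h x i)|)`. With `a j = sin (π j / 2 m)` the polynomial
`P u = ∑ a j e (j u)` has `2 (cos 2 π u - cos θ) P u = sin θ (1 + e (2 m u))`, `θ = π / 2 m`.
-/

set_option autoImplicit false

noncomputable section

namespace FA.SmallPowerParts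

open Finset
open FA.ThreePrimes (eAdd eAdd_add eAdd_zero eAdd_intCast conj_eAdd nearDist)
open scoped Real ComplexConjugate

/-- `sin (j π / 2 m)`. -/
def sineWeight (m j : ℕ) : ℝ := Real.sin ((j : ℝ) * (π / (2 * m)))

theorem sineWeight_zero (m : ℕ) : sineWeight m 0 = 0 := by simp [sineWeight]

theorem sineWeight_end {m : ℕ} (hm : 1 ≤ m) : sineWeight m (2 * m) = 0 := by
  have : (m : ℝ) ≠ 0 := Nat.cast_ne_zero.2 (by omega)
  rw [sineWeight, show ((2 * m : ℕ) : ℝ) * (π / (2 * m)) = π by push_cast; field_simp,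
    Real.sin_pi]

theorem abs_sineWeight_le (m j : ℕ) : |sineWeight m j| ≤ 1 := Real.abs_sin_le_one _

theorem sum_sineWeight_sq {m : ℕ} (hm : 1 ≤ m) :
    ∑ j ∈ range (2 * m), sineWeight m j ^ 2 = (m : ℝ) := by
  have h0 : (m : ℝ) ≠ 0 := Nat.cast_ne_zero.2 (by omega)
  rw [two_mul, sum_range_add, ← sum_add_distrib]
  refine (sum_congr rfl (g := fun _ => (1 : ℝ)) fun j _ => ?_).trans (by simp)
  rw [sineWeight, sineWeight, show ((m + j : ℕ) : ℝ) * (π / (2 * m)) =
    (j : ℝ) * (π / (2 * m)) + π / 2 by push_cast; field_simp; ring, Real.sin_add_pi_div_two,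
    Real.sin_sq_add_cos_sq]

/-- `∑ sin (j θ) e (j u)`. -/
def sinePoly (m : ℕ) (u : ℝ) : ℂ := ∑ j ∈ range (2 * m), (sineWeight m j : ℂ) * eAdd (j * u)

/-- The second difference of the sines. -/
theorem sineWeight_add_two (m j : ℕ) : sineWeight m (j + 2) + sineWeight m j =
    2 * Real.cos (π / (2 * m)) * sineWeight m (j + 1) := by
  simp only [sineWeight]
  rw [Real.sin_add_sin]
  push_cast
  ring_nf

/-- Over the first `L` frequencies only the two ends remain. -/
theorem sinePoly_mul_aux (m : ℕ) (z : ℂ) : ∀ L : ℕ,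
    (z ^ 2 + 1 - 2 * (Real.cos (π / (2 * m)) : ℂ) * z) *
        ∑ j ∈ range (L + 1), (sineWeight m j : ℂ) * z ^ j =
      z * (sineWeight m 1 : ℂ) + (sineWeight m L : ℂ) * z ^ (L + 2) -
        (sineWeight m (L + 1) : ℂ) * z ^ (L + 1) := by
  intro L
  induction L with
  | zero => simp [sineWeight_zero]; ring
  | succ L ih =>
    have h : (sineWeight m (L + 2) : ℂ) + (sineWeight m L : ℂ) =
        2 * (Real.cos (π / (2 * m)) : ℂ) * (sineWeight m (L + 1) : ℂ) := by
      exact_mod_cast congrArg (fun t : ℝ => (t : ℂ)) (sineWeight_add_two m L)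
    rw [sum_range_succ, mul_add, ih]
    linear_combination z ^ (L + 2) * h

theorem two_cos_eq (u : ℝ) :
    ((2 * Real.cos (2 * π * u) : ℝ) : ℂ) = eAdd u + eAdd (-u) := by
  rw [eAdd, eAdd, Complex.ofReal_mul, Complex.ofReal_cos, Complex.ofReal_ofNat, Complex.two_cos]
  push_cast
  ring_nf

/-- **The identity.** -/
theorem sinePoly_mul {m : ℕ} (hm : 1 ≤ m) (u : ℝ) :
    ((2 * (Real.cos (2 * π * u) - Real.cos (π / (2 * m))) : ℝ) : ℂ) * sinePoly m u =
      (Real.sin (π / (2 * m)) : ℂ) * (1 + eAdd ((2 * m : ℕ) * u)) := by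
  obtain ⟨L, hL⟩ : ∃ L, 2 * m = L + 1 := ⟨2 * m - 1, by omega⟩
  have hpow : ∀ n : ℕ, eAdd u ^ n = eAdd (n * u) := fun n => (ThreePrimes.eAdd_nat_mul n u).symm
  have hpoly : sinePoly m u = ∑ j ∈ range (L + 1), (sineWeight m j : ℂ) * eAdd u ^ j := by
    rw [sinePoly, hL]
    simp only [hpow]
  have hinv : eAdd u * eAdd (-u) = 1 := by rw [← eAdd_add, add_neg_cancel, eAdd_zero]
  have hend : sineWeight m L = sineWeight m 1 := by
    have h0 : (m : ℝ) ≠ 0 := Nat.cast_ne_zero.2 (by omega)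
    have hLr : (L : ℝ) + 1 = 2 * m := by exact_mod_cast hL.symm
    rw [sineWeight, sineWeight, ← Real.sin_pi_sub]
    congr 1
    push_cast
    field_simp
    linarith
  have h := sinePoly_mul_aux m (eAdd u) L
  rw [← hpoly, hend, show L + 2 = 2 * m + 1 by omega, ← hL, sineWeight_end hm, Complex.ofReal_zero,
    zero_mul, sub_zero, pow_succ' (eAdd u) (2 * m), hpow (2 * m),
    show sineWeight m 1 = Real.sin (π / (2 * m)) by simp [sineWeight]] at h
  have hc := two_cos_eq u
  generalize Real.sin (π / (2 * m)) = sn at h ⊢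
  generalize Real.cos (π / (2 * m)) = cs at h ⊢
  generalize Real.cos (2 * π * u) = cu at hc ⊢
  rw [Complex.ofReal_mul, Complex.ofReal_sub, Complex.ofReal_ofNat]
  rw [Complex.ofReal_mul, Complex.ofReal_ofNat] at hc
  refine mul_left_cancel₀ (left_ne_zero_of_mul_eq_one hinv) ?_
  linear_combination h + eAdd u * sinePoly m u * hc + sinePoly m u * hinv

theorem cos_sub_cos_bounds {m : ℕ} (hm : 1 ≤ m) :
    1 / (2 * (m : ℝ) ^ 2) ≤ Real.cos (π / (2 * m)) - Real.cos (π / m) ∧
      Real.cos (π / (2 * m)) - Real.cos (π / m) ≤ 6 / (m : ℝ) ^ 2 := by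
  have hm1 : (1 : ℝ) ≤ m := by exact_mod_cast hm
  obtain ⟨θ, hθ⟩ : ∃ θ, θ = π / (2 * (m : ℝ)) := ⟨_, rfl⟩
  rw [show π / (m : ℝ) = 2 * θ by rw [hθ]; field_simp, ← hθ, Real.cos_two_mul]
  have hθ0 : 0 ≤ θ := hθ ▸ by positivity
  have hθ1 : θ ≤ π / 2 := by
    rw [hθ]
    exact div_le_div_of_nonneg_left Real.pi_pos.le two_pos (by linarith)
  have h1 := Real.cos_le_one_sub_mul_cos_sq (x := θ) (by
    rw [abs_of_nonneg hθ0]; linarith [Real.pi_pos])
  have h2 := Real.one_sub_sq_div_two_le_cos (x := θ)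
  have h3 : 0 ≤ Real.cos θ := Real.cos_nonneg_of_mem_Icc ⟨by linarith [Real.pi_pos], hθ1⟩
  have h4 := Real.cos_le_one θ
  have e : Real.cos θ - (2 * Real.cos θ ^ 2 - 1) = (1 - Real.cos θ) * (1 + 2 * Real.cos θ) := by
    ring
  rw [e]
  constructor
  · refine le_trans ?_ (le_mul_of_one_le_right (by linarith) (by linarith))
    have h5 : 1 / (2 * (m : ℝ) ^ 2) = 2 / π ^ 2 * θ ^ 2 := by rw [hθ]; field_simp
    linarith
  · refine (mul_le_mul (show 1 - Real.cos θ ≤ θ ^ 2 / 2 by linarith)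
      (show 1 + 2 * Real.cos θ ≤ 3 by linarith) (by linarith) (by positivity)).trans ?_
    have h6 : π ^ 2 ≤ 4 ^ 2 := pow_le_pow_left₀ Real.pi_pos.le Real.pi_le_four 2
    rw [hθ, div_pow, show π ^ 2 / (2 * (m : ℝ)) ^ 2 / 2 * 3 = 3 / 8 * π ^ 2 / (m : ℝ) ^ 2 by
      field_simp; ring]
    exact div_le_div_of_nonneg_right (by linarith) (by positivity)

theorem cos_le_of_avoid {m : ℕ} (hm : 1 ≤ m) {x : ℝ} (hx : 1 / (2 * (m : ℝ)) ≤ nearDist x) :
    Real.cos (2 * π * x) ≤ Real.cos (π / m) := by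
  have hu : Real.cos (2 * π * x) = Real.cos (2 * π * nearDist x) := by
    rw [nearDist, ← Real.cos_abs (2 * π * |x - round x|), abs_mul, abs_abs, ← abs_mul,
      Real.cos_abs, show 2 * π * (x - round x) = 2 * π * x - round x * (2 * π) by ring,
      Real.cos_sub_int_mul_two_pi]
  have hm0 : (0 : ℝ) < m := Nat.cast_pos.2 hm
  rw [hu]
  refine Real.cos_le_cos_of_nonneg_of_le_pi (by positivity) ?_ ?_
  · have := mul_le_mul_of_nonneg_left (show nearDist x ≤ 1 / 2 from abs_sub_round x)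
      (show 0 ≤ 2 * π by positivity)
    linarith
  · have := mul_le_mul_of_nonneg_left hx (show 0 ≤ 2 * π by positivity)
    refine le_trans (le_of_eq ?_) this
    field_simp

/-- The exponential sum of a family. -/
def familySum {ι : Type*} (S : Finset ι) (x : ι → ℝ) (t : ℤ) : ℂ := ∑ i ∈ S, eAdd ((t : ℝ) * x i)

theorem norm_familySum_natAbs {ι : Type*} (S : Finset ι) (x : ι → ℝ) (t : ℤ) :
    ‖familySum S x t‖ = ‖familySum S x (t.natAbs : ℤ)‖ := by
  rcases Int.natAbs_eq t with h | h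
  · rw [← h]
  · conv_lhs => rw [h, ← Complex.norm_conj]
    rw [familySum, familySum, map_sum]
    simp only [conj_eAdd, Int.cast_neg, neg_mul, neg_neg]

/-- **Montgomery's lemma**: avoiding an interval forces a large sum. -/
theorem card_le_sum_of_avoid {ι : Type*} (S : Finset ι) (x : ι → ℝ) {m : ℕ} (hm : 1 ≤ m)
    (hx : ∀ i ∈ S, 1 / (2 * (m : ℝ)) ≤ nearDist (x i)) :
    (S.card : ℝ) ≤ 60 * ∑ h ∈ Icc 1 (2 * m), ‖∑ i ∈ S, eAdd ((h : ℝ) * x i)‖ := by
  have hm1 : (1 : ℝ) ≤ m := by exact_mod_cast hm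
  have hm0 : (m : ℝ) ≠ 0 := by linarith
  obtain ⟨Tot, hTot⟩ : ∃ T : ℝ,
      T = ∑ h ∈ Icc 1 (2 * m), ‖∑ i ∈ S, eAdd ((h : ℝ) * x i)‖ := ⟨_, rfl⟩
  rw [← hTot]
  obtain ⟨κ, hκ⟩ : ∃ κ, κ = Real.cos (π / (2 * (m : ℝ))) - Real.cos (π / m) := ⟨_, rfl⟩
  obtain ⟨hκ1, hκ2⟩ := cos_sub_cos_bounds hm
  rw [← hκ] at hκ1 hκ2
  have hκ0 : 0 ≤ κ := le_trans (by positivity) hκ1
  have hTot0 : 0 ≤ Tot := hTot ▸ sum_nonneg fun h _ => norm_nonneg _
  obtain ⟨s, hs⟩ : ∃ s, s = Real.sin (π / (2 * (m : ℝ))) := ⟨_, rfl⟩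
  have hs0 : 0 ≤ s := hs ▸ Real.sin_nonneg_of_nonneg_of_le_pi (by positivity)
    (div_le_self Real.pi_pos.le (by linarith))
  have hs1 : s ≤ 2 / m := by
    rw [hs]
    refine (Real.sin_le (by positivity)).trans ?_
    rw [div_le_div_iff₀ (by positivity) (by linarith)]
    have := mul_le_mul_of_nonneg_right Real.pi_le_four (show (0 : ℝ) ≤ m by linarith)
    linarith
  -- the linear part
  obtain ⟨Lsum, hLsum⟩ : ∃ T : ℂ, T = ∑ i ∈ S,
      (1 + eAdd ((2 * m : ℕ) * x i)) * conj (sinePoly m (x i)) := ⟨_, rfl⟩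
  have hlin : ‖Lsum‖ ≤ 2 * Tot := by
    have e : Lsum = ∑ j ∈ range (2 * m), (sineWeight m j : ℂ) *
        (familySum S x (-(j : ℤ)) + familySum S x ((2 * m : ℕ) - (j : ℤ))) := by
      simp only [hLsum, sinePoly, familySum, map_sum, mul_sum, ← sum_add_distrib]
      rw [sum_comm]
      refine sum_congr rfl fun j _ => sum_congr rfl fun i _ => ?_
      rw [map_mul, Complex.conj_ofReal, conj_eAdd]
      have : eAdd (((2 * m : ℕ) - (j : ℤ) : ℤ) * x i) =
          eAdd ((2 * m : ℕ) * x i) * eAdd (-((j : ℝ) * x i)) := by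
        rw [← eAdd_add]
        push_cast
        ring_nf
      rw [this]
      push_cast
      ring_nf
    rw [e]
    refine (norm_sum_le _ _).trans ?_
    rw [← sum_erase (range (2 * m)) (a := 0) (by simp [sineWeight_zero])]
    refine (sum_le_sum (g := fun j : ℕ =>
      ‖familySum S x (j : ℤ)‖ + ‖familySum S x ((2 * m - j : ℕ) : ℤ)‖) fun j hj => ?_).trans ?_
    · rw [mem_erase, mem_range] at hj
      rw [norm_mul, Complex.norm_real, Real.norm_eq_abs]
      refine (mul_le_of_le_one_left (norm_nonneg _) (abs_sineWeight_le m j)).trans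
        ((norm_add_le _ _).trans (le_of_eq ?_))
      rw [norm_familySum_natAbs S x (-(j : ℤ)), norm_familySum_natAbs S x (_ - _),
        show (-(j : ℤ)).natAbs = j by omega,
        show (((2 * m : ℕ) : ℤ) - (j : ℤ)).natAbs = 2 * m - j by omega]
    · rw [sum_add_distrib, two_mul Tot]
      have hnorm : ∀ h : ℕ, ‖familySum S x (h : ℤ)‖ = ‖∑ i ∈ S, eAdd ((h : ℝ) * x i)‖ :=
        fun h => by simp [familySum]
      refine add_le_add ?_ ?_
      · simp only [hnorm, hTot]
        refine sum_le_sum_of_subset_of_nonneg (fun j hj => ?_) fun h _ _ => norm_nonneg _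
        rw [mem_erase, mem_range] at hj
        rw [mem_Icc]
        omega
      · simp only [hnorm, hTot]
        rw [← sum_image (f := fun h : ℕ => ‖∑ i ∈ S, eAdd ((h : ℝ) * x i)‖)
          (g := fun j => 2 * m - j) fun a ha b hb h => by
            simp only [coe_erase, coe_range, Set.mem_sdiff, Set.mem_Iio,
              Set.mem_singleton_iff] at ha hb
            dsimp only at h
            omega]
        refine sum_le_sum_of_subset_of_nonneg (fun h hh => ?_) fun h _ _ => norm_nonneg _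
        obtain ⟨j, hj, rfl⟩ := mem_image.1 hh
        rw [mem_erase, mem_range] at hj
        rw [mem_Icc]
        omega
  -- the square
  have hsq : (m : ℝ) * S.card - (2 * m : ℕ) * (2 * Tot) ≤ ∑ i ∈ S, ‖sinePoly m (x i)‖ ^ 2 := by
    have e : ((∑ i ∈ S, ‖sinePoly m (x i)‖ ^ 2 : ℝ) : ℂ) = ∑ j ∈ range (2 * m),
        ∑ l ∈ range (2 * m), (sineWeight m j : ℂ) * (sineWeight m l : ℂ) *
          familySum S x ((j : ℤ) - l) := by
      push_cast
      have e1 : ∀ i, (‖sinePoly m (x i)‖ : ℂ) ^ 2 = ∑ j ∈ range (2 * m), ∑ l ∈ range (2 * m),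
          (sineWeight m j : ℂ) * (sineWeight m l : ℂ) * eAdd ((((j : ℤ) - l : ℤ) : ℝ) * x i) :=
        fun i => by
        rw [← Complex.mul_conj', sinePoly, map_sum, sum_mul_sum]
        refine sum_congr rfl fun j _ => sum_congr rfl fun l _ => ?_
        rw [map_mul, Complex.conj_ofReal, conj_eAdd,
          show ((((j : ℤ) - l : ℤ)) : ℝ) * x i = (j : ℝ) * x i + -((l : ℝ) * x i) by
            push_cast; ring, eAdd_add]
        ring
      rw [sum_congr rfl fun i _ => e1 i, sum_comm]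
      refine sum_congr rfl fun j _ => ?_
      rw [sum_comm]
      refine sum_congr rfl fun l _ => ?_
      rw [familySum, mul_sum]
    have hdiag : ∀ j ∈ range (2 * m), ∑ l ∈ range (2 * m), (sineWeight m j : ℂ) *
        (sineWeight m l : ℂ) * familySum S x ((j : ℤ) - l) =
          ((sineWeight m j ^ 2 * S.card : ℝ) : ℂ) + ∑ l ∈ (range (2 * m)).erase j,
            (sineWeight m j : ℂ) * (sineWeight m l : ℂ) * familySum S x ((j : ℤ) - l) := by
      intro j hj
      rw [← add_sum_erase _ _ hj]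
      congr 1
      simp [familySum, sq]
    rw [sum_congr rfl hdiag, sum_add_distrib, ← Complex.ofReal_sum, ← sum_mul,
      sum_sineWeight_sq hm] at e
    have h1 := congrArg Complex.re e
    rw [Complex.ofReal_re, Complex.add_re, Complex.ofReal_re] at h1
    rw [h1]
    have h2 : ‖∑ j ∈ range (2 * m), ∑ l ∈ (range (2 * m)).erase j, (sineWeight m j : ℂ) *
        (sineWeight m l : ℂ) * familySum S x ((j : ℤ) - l)‖ ≤ (2 * m : ℕ) * (2 * Tot) := by
      refine (norm_sum_le _ _).trans ((sum_le_card_nsmul _ _ (2 * Tot) fun j hj => ?_).trans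
        (le_of_eq (by rw [card_range, nsmul_eq_mul])))
      refine (norm_sum_le _ _).trans ?_
      refine (sum_le_sum (g := fun l : ℕ => ‖familySum S x (((j : ℤ) - l).natAbs : ℤ)‖)
        fun l _ => ?_).trans ?_
      · rw [norm_mul, norm_mul, Complex.norm_real, Complex.norm_real, Real.norm_eq_abs,
          Real.norm_eq_abs, ← norm_familySum_natAbs]
        exact mul_le_of_le_one_left (norm_nonneg _)
          (mul_le_one₀ (abs_sineWeight_le m j) (abs_nonneg _) (abs_sineWeight_le m l))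
      rw [mem_range] at hj
      rw [← sum_filter_add_sum_filter_not _ (fun l => l < j), two_mul Tot]
      have hnorm : ∀ h : ℕ, ‖familySum S x (h : ℤ)‖ = ‖∑ i ∈ S, eAdd ((h : ℝ) * x i)‖ :=
        fun h => by simp [familySum]
      simp only [hnorm, hTot]
      refine add_le_add ?_ ?_ <;>
      · rw [← sum_image (f := fun h : ℕ => ‖∑ i ∈ S, eAdd ((h : ℝ) * x i)‖)
          (g := fun l : ℕ => ((j : ℤ) - l).natAbs) fun a ha b hb h => by
            simp only [coe_filter, mem_erase, mem_range, Set.mem_ofPred_eq] at ha hb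
            dsimp only at h
            omega]
        refine sum_le_sum_of_subset_of_nonneg (fun h hh => ?_) fun h _ _ => norm_nonneg _
        obtain ⟨l, hl, rfl⟩ := mem_image.1 hh
        rw [mem_filter, mem_erase, mem_range] at hl
        rw [mem_Icc]
        omega
    have h3 := neg_le_of_abs_le ((Complex.abs_re_le_norm _).trans h2)
    linarith
  -- the inequality at each point
  have hpoint : 2 * κ * ∑ i ∈ S, ‖sinePoly m (x i)‖ ^ 2 ≤ -(s * Lsum.re) := by
    rw [hLsum, Complex.re_sum, mul_sum, mul_sum, ← sum_neg_distrib]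
    refine sum_le_sum fun i hi => ?_
    obtain ⟨w, hw⟩ : ∃ w, w = sinePoly m (x i) := ⟨_, rfl⟩
    rw [← hw]
    have h := congrArg (fun z : ℂ => (z * conj w).re) (hw ▸ sinePoly_mul hm (x i))
    rw [← hs, mul_assoc ((_ : ℝ) : ℂ) w, mul_assoc (s : ℂ), Complex.mul_conj',
      ← Complex.ofReal_pow, ← Complex.ofReal_mul, Complex.ofReal_re, Complex.re_ofReal_mul] at h
    have hc := mul_le_mul_of_nonneg_right (cos_le_of_avoid hm (hx i hi)) (sq_nonneg ‖w‖)
    rw [hκ]
    linarith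
  have h1 : 2 * κ * ((m : ℝ) * S.card - (2 * m : ℕ) * (2 * Tot)) ≤ s * (2 * Tot) := by
    refine (mul_le_mul_of_nonneg_left hsq (by linarith)).trans (hpoint.trans ?_)
    rw [← mul_neg]
    exact mul_le_mul_of_nonneg_left
      ((neg_le_abs _).trans ((Complex.abs_re_le_norm _).trans hlin)) hs0
  push_cast at h1
  have h2 := mul_le_mul_of_nonneg_right hκ1
    (show (0 : ℝ) ≤ 2 * ((m : ℝ) * S.card) by positivity)
  have h3 := mul_le_mul_of_nonneg_right hκ2 (show 0 ≤ 8 * (m : ℝ) * Tot by positivity)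
  have h4 := mul_le_mul_of_nonneg_right hs1 (show 0 ≤ 2 * Tot by linarith)
  have e2 : 1 / (2 * (m : ℝ) ^ 2) * (2 * ((m : ℝ) * S.card)) = S.card / m := by field_simp
  have e3 : 6 / (m : ℝ) ^ 2 * (8 * (m : ℝ) * Tot) = 48 * Tot / m := by field_simp; ring
  have e4 : 2 / (m : ℝ) * (2 * Tot) = 4 * Tot / m := by ring
  rw [e2] at h2
  rw [e3] at h3
  rw [e4] at h4
  have h5 : (S.card : ℝ) / m ≤ 52 * Tot / m := by
    rw [show 52 * Tot / (m : ℝ) = 48 * Tot / m + 4 * Tot / m by ring]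
    linarith
  have h6 := (div_le_div_iff_of_pos_right (show (0 : ℝ) < m by linarith)).1 h5
  linarith

end FA.SmallPowerParts

end
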