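import Fermat.Agent.WaringAsymptotic.Weyl

/-!
# Weyl sums of the multiples of `α`

`∑_{h ≤ H} |∑_{n ≤ N} e (h α n ^ k)| ^ (2 ^ (k - 1))` after differencing: the products `h m` take
each value `O (N ^ ε)` times, so the clipped sums are over `O (H N ^ (k - 1))` consecutive
multiples of `α`.
-/

set_option autoImplicit false

noncomputable section

namespace FA.SmallPowerParts

open Finset FA.ThreePrimes FA.WaringAsymptotic

/-- The products of `h` and `m` take each value few times. -/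
theorem sum_mul_le {H T : ℕ} {B : ℝ} {g : ℕ → ℝ} (hg : ∀ i, 0 ≤ g i)
    (hB : ∀ i, 1 ≤ i → i ≤ H * T → (i.divisors.card : ℝ) ≤ B) :
    ∑ h ∈ Icc 1 H, ∑ m ∈ Icc 1 T, g (h * m) ≤ B * ∑ i ∈ Icc 1 (H * T), g i := by
  rw [← sum_product']
  have hmem : ∀ z ∈ Icc 1 H ×ˢ Icc 1 T, z.1 * z.2 ∈ Icc 1 (H * T) := fun z hz => by
    rw [mem_product, mem_Icc, mem_Icc] at hz
    exact mem_Icc.2 ⟨Nat.mul_pos hz.1.1 hz.2.1, Nat.mul_le_mul hz.1.2 hz.2.2⟩
  rw [← sum_fiberwise_of_maps_to hmem, mul_sum]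
  refine sum_le_sum fun i hi => ?_
  rw [mem_Icc] at hi
  refine (sum_le_card_nsmul _ _ (g i) fun z hz => le_of_eq (by rw [(mem_filter.1 hz).2])).trans ?_
  rw [nsmul_eq_mul]
  refine mul_le_mul_of_nonneg_right (le_trans ?_ (hB i hi.1 hi.2)) (hg i)
  refine Nat.cast_le.2 (card_le_card_of_injOn (fun z => z.1) (fun z hz => ?_)
    fun z hz z' hz' e => ?_)
  · rw [mem_coe, mem_filter] at hz
    exact mem_coe.2 (Nat.mem_divisors.2 ⟨hz.2 ▸ dvd_mul_right z.1 z.2, by omega⟩)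
  · rw [mem_coe, mem_filter, mem_product, mem_Icc] at hz hz'
    dsimp only at e
    refine Prod.ext e (Nat.eq_of_mul_eq_mul_left (show 0 < z.1 by omega) ?_)
    rw [hz.2, e, hz'.2]

/-- **The mean of the powers.** -/
theorem exists_power_sum_le {k : ℕ} (hk : 2 ≤ k) {ε : ℝ} (hε : 0 < ε) : ∃ C : ℝ, 0 < C ∧
    ∀ (N H q : ℕ) [NeZero q] (a : ℤ) (α : ℝ), 1 ≤ N → H ≤ N → q ≤ N ^ k →
      IsUnit (a : ZMod q) → |α - a / q| ≤ 1 / (q : ℝ) ^ 2 →
        ∑ h ∈ Icc 1 H, ‖waringSum k N ((h : ℝ) * α)‖ ^ 2 ^ (k - 1) ≤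
          C * (N : ℝ) ^ (2 ^ (k - 1) - k) * (N : ℝ) ^ ε *
            (H * (N : ℝ) ^ (k - 1) + H * (N : ℝ) ^ k / q + q) := by
  obtain ⟨j, rfl⟩ : ∃ j, k = j + 1 := ⟨k - 1, by omega⟩
  rw [Nat.add_sub_cancel]
  obtain ⟨e, he⟩ : ∃ e : ℝ, e = ε / 3 := ⟨_, rfl⟩
  have he0 : 0 < e := by rw [he]; linarith
  obtain ⟨C₁, hC₁, hsteps⟩ := exists_steps_sum_le (j := j) (by omega) he0
  obtain ⟨e', he'⟩ : ∃ e' : ℝ, e' = e / ((j : ℝ) + 1) := ⟨_, rfl⟩
  have he'0 : 0 < e' := he' ▸ by positivity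
  obtain ⟨D, hD1, hD⟩ := RepresentationBound.card_divisors_isBigO e' he'0
  obtain ⟨F, hF⟩ : ∃ F, F = (j + 1).factorial := ⟨_, rfl⟩
  have hF1 : (1 : ℝ) ≤ F := by exact_mod_cast hF ▸ Nat.factorial_pos _
  obtain ⟨A, hA⟩ : ∃ A : ℝ, A = D * (F : ℝ) ^ e' := ⟨_, rfl⟩
  have hA1 : 1 ≤ A := hA ▸ one_le_mul_of_one_le_of_one_le hD1 (Real.one_le_rpow hF1 he'0.le)
  obtain ⟨W, hW⟩ : ∃ W : ℝ, W = 1 + 1 / e' := ⟨_, rfl⟩
  have hW1 : 1 ≤ W := hW ▸ le_add_of_nonneg_right (by positivity)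
  refine ⟨2 ^ 2 ^ j * C₁ * (2 + A * (20 * (F : ℝ) + 20) * W), by positivity,
    fun N H q _ a α hN hHN hqN ha hα => ?_⟩
  rcases Nat.eq_zero_or_pos H with hH | hH
  · subst hH
    simp only [show Icc 1 0 = (∅ : Finset ℕ) from Icc_eq_empty (by omega), sum_empty]
    positivity
  have hN1 : (1 : ℝ) ≤ N := by exact_mod_cast hN
  have hN0 : (0 : ℝ) < N := by linarith
  have hq : (1 : ℝ) ≤ q := by exact_mod_cast (NeZero.pos q : 0 < q)
  -- one sum
  have hone : ∀ h : ℕ, ‖waringSum (j + 1) N ((h : ℝ) * α)‖ ^ 2 ^ j ≤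
      (2 * (N : ℝ)) ^ (2 ^ j - (j + 1)) * (C₁ * ((N : ℝ) ^ j + (N : ℝ) ^ e *
        ((N : ℝ) + ∑ m ∈ Icc 1 (F * N ^ j), clip N (α * ((h * m : ℕ) : ℝ))))) := by
    intro h
    have hweyl := weyl_differencing j (hasLead_pow ((h : ℝ) * α) (j + 1)) hN 0 N (by simp)
    rw [← waringSum_eq_int] at hweyl
    refine hweyl.trans (mul_le_mul_of_nonneg_left ((hsteps N hN _).trans ?_) (by positivity))
    refine mul_le_mul_of_nonneg_left (add_le_add le_rfl (mul_le_mul_of_nonneg_left ?_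
      (by positivity))) hC₁.le
    rw [← hF, range_eq_Ico, sum_eq_sum_Ico_succ_bot (Nat.succ_pos _),
      Nat.succ_eq_add_one, zero_add, Ico_add_one_right_eq_Icc]
    refine add_le_add (clip_le _ _) (le_of_eq (sum_congr rfl fun m _ => ?_))
    push_cast
    ring_nf
  obtain ⟨S, hS⟩ : ∃ S, S = ∑ i ∈ range (H * (F * N ^ j) + 1), clip N (α * (i : ℝ)) := ⟨_, rfl⟩
  have hclip : ∀ x, 0 ≤ clip (N : ℝ) x := fun x => clip_nonneg hN0.le x
  have hNe : (1 : ℝ) ≤ (N : ℝ) ^ e := Real.one_le_rpow hN1 he0.le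
  -- the multiples
  have hdouble : ∑ h ∈ Icc 1 H, ∑ m ∈ Icc 1 (F * N ^ j), clip N (α * ((h * m : ℕ) : ℝ)) ≤
      A * (N : ℝ) ^ e * S := by
    refine (sum_mul_le (g := fun i : ℕ => clip N (α * (i : ℝ))) (fun i => hclip _)
      (B := A * (N : ℝ) ^ e) fun i hi1 hi => ?_).trans
        (mul_le_mul_of_nonneg_left ?_ (by positivity))
    · refine (hD i (by omega)).trans ?_
      have hi' : i ≤ F * N ^ (j + 1) := hi.trans (by
        rw [pow_succ, mul_comm H, ← mul_assoc F (N ^ j) N]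
        exact Nat.mul_le_mul_left _ hHN)
      refine (mul_le_mul_of_nonneg_left (Real.rpow_le_rpow (Nat.cast_nonneg _)
        (Nat.cast_le.2 hi') he'0.le) (by linarith)).trans (le_of_eq ?_)
      rw [Nat.cast_mul, Nat.cast_pow, Real.mul_rpow (by linarith) (by positivity),
        ← Real.rpow_natCast, ← Real.rpow_mul hN0.le, hA,
        show ((j + 1 : ℕ) : ℝ) * e' = e by rw [he']; push_cast; field_simp]
      ring
    · rw [hS]
      refine sum_le_sum_of_subset_of_nonneg (fun i hi => ?_) fun i _ _ => hclip _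
      rw [mem_Icc] at hi
      exact mem_range.2 (by omega)
  obtain ⟨L, hL⟩ : ∃ L, L = 1 + Real.log q := ⟨_, rfl⟩
  have hL1 : 1 ≤ L := by linarith [Real.log_natCast_nonneg q]
  have hLW : L ≤ W * (N : ℝ) ^ e := by
    have h1 := Real.log_le_rpow_div (Nat.cast_nonneg q) he'0
    have h2 : (q : ℝ) ^ e' ≤ (N : ℝ) ^ e := by
      have : (q : ℝ) ≤ (N : ℝ) ^ (j + 1) := by exact_mod_cast hqN
      refine (Real.rpow_le_rpow (Nat.cast_nonneg _) this he'0.le).trans (le_of_eq ?_)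
      rw [← Real.rpow_natCast, ← Real.rpow_mul hN0.le,
        show ((j + 1 : ℕ) : ℝ) * e' = e by rw [he']; push_cast; field_simp]
    have h3 : (q : ℝ) ^ e' / e' ≤ (N : ℝ) ^ e / e' :=
      div_le_div_of_nonneg_right h2 he'0.le
    rw [hL, hW, add_mul, one_mul, one_div_mul_eq_div]
    linarith
  obtain ⟨Y, hY⟩ : ∃ Y : ℝ,
      Y = H * (N : ℝ) ^ j + H * (N : ℝ) ^ (j + 1) / q + q := ⟨_, rfl⟩
  rw [← hY]
  have hY0 : 0 ≤ Y := hY ▸ by positivity
  have hSY : S ≤ (20 * (F : ℝ) + 20) * L * Y := by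
    have hH1 : (1 : ℝ) ≤ H := by exact_mod_cast hH
    have hsum := sum_clip_range_le ha hα 0 (Z := (N : ℝ)) hN0.le (H * (F * N ^ j) + 1)
    simp only [zero_add, ← hL, ← hS] at hsum
    push_cast at hsum
    refine hsum.trans ?_
    obtain ⟨u, hu⟩ : ∃ u : ℝ, u = H * (N : ℝ) ^ j := ⟨_, rfl⟩
    have hu1 : 1 ≤ u := hu ▸ one_le_mul_of_one_le_of_one_le hH1 (one_le_pow₀ hN1)
    have hNu : (N : ℝ) ≤ u := hu ▸ (le_self_pow₀ hN1 (by omega)).trans
      (le_mul_of_one_le_left (by positivity) hH1)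
    have hFu : 1 ≤ (F : ℝ) * u := one_le_mul_of_one_le_of_one_le hF1 hu1
    have e1 : Y = u + u * N / q + q := by rw [hY, hu, pow_succ]; ring
    rw [e1, show (H : ℝ) * ((F : ℝ) * (N : ℝ) ^ j) = F * u by rw [hu]; ring]
    refine (mul_le_mul_of_nonneg_right (show ((F : ℝ) * u + 1) / q + 1 ≤ 2 * F * u / q + 1 by
      gcongr; linarith) (by positivity)).trans ?_
    have z1 : 0 ≤ u * N / q := by positivity
    have z2 : 0 ≤ u := by linarith
    have z3 : u * N / q ≤ L * (u * N / q) := le_mul_of_one_le_left z1 hL1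
    have z4 : (N : ℝ) ≤ L * u := hNu.trans (le_mul_of_one_le_left z2 hL1)
    have z5 : 0 ≤ L * u := by positivity
    have z6 : (0 : ℝ) ≤ L * q := by positivity
    have z7 := mul_le_mul_of_nonneg_left z3 (show (0 : ℝ) ≤ F by linarith)
    have z8 : 0 ≤ (F : ℝ) * (L * u) := by positivity
    have z9 : 0 ≤ (F : ℝ) * (L * q) := by positivity
    have z10 : 0 ≤ (F : ℝ) * (L * (u * N / q)) := by positivity
    have z11 : 0 ≤ L * (u * N / q) := by positivity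
    have e2 : (2 * (F : ℝ) * u / q + 1) * (5 * N + 2 * q * L) =
        10 * (F * (u * N / q)) + 4 * (F * (L * u)) + 5 * N + 2 * (L * q) := by
      field_simp
      ring
    rw [e2]
    linarith
  refine (sum_le_sum fun h _ => hone h).trans ?_
  rw [← mul_sum, ← mul_sum, sum_add_distrib, ← mul_sum, sum_add_distrib, sum_const, sum_const,
    Nat.card_Icc, Nat.add_sub_cancel, nsmul_eq_mul, nsmul_eq_mul]
  have hpow : (N : ℝ) ^ e * ((N : ℝ) ^ e * (N : ℝ) ^ e) = (N : ℝ) ^ ε := by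
    rw [← Real.rpow_add hN0, ← Real.rpow_add hN0, he]
    ring_nf
  have hHY : (H : ℝ) * (N : ℝ) ^ j ≤ Y := by
    rw [hY]
    have : 0 ≤ (H : ℝ) * (N : ℝ) ^ (j + 1) / q := by positivity
    linarith
  have hε1 : (N : ℝ) ^ e ≤ (N : ℝ) ^ ε :=
    Real.rpow_le_rpow_of_exponent_le hN1 (by rw [he]; linarith)
  have hmain : (H : ℝ) * (N : ℝ) ^ j + (N : ℝ) ^ e * ((H : ℝ) * N +
      ∑ h ∈ Icc 1 H, ∑ m ∈ Icc 1 (F * N ^ j), clip N (α * ((h * m : ℕ) : ℝ))) ≤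
        (2 + A * (20 * (F : ℝ) + 20) * W) * ((N : ℝ) ^ ε * Y) := by
    have w1 : (H : ℝ) * (N : ℝ) ^ j ≤ (N : ℝ) ^ ε * Y :=
      hHY.trans (le_mul_of_one_le_left hY0 (hNe.trans hε1))
    have w2 : (N : ℝ) ^ e * ((H : ℝ) * N) ≤ (N : ℝ) ^ ε * Y :=
      mul_le_mul hε1 ((mul_le_mul_of_nonneg_left (le_self_pow₀ hN1 (by omega))
        (Nat.cast_nonneg _)).trans hHY) (by positivity) (by positivity)
    have w3 : (N : ℝ) ^ e * (A * (N : ℝ) ^ e * S) ≤
        A * (20 * (F : ℝ) + 20) * W * ((N : ℝ) ^ ε * Y) := by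
      refine (mul_le_mul_of_nonneg_left (mul_le_mul_of_nonneg_left
        (hSY.trans (mul_le_mul_of_nonneg_right (mul_le_mul_of_nonneg_left hLW (by positivity))
          hY0)) (by positivity)) (by positivity)).trans (le_of_eq ?_)
      rw [← hpow]
      ring
    have w4 := mul_le_mul_of_nonneg_left hdouble (show 0 ≤ (N : ℝ) ^ e by positivity)
    linarith
  refine (mul_le_mul_of_nonneg_left (mul_le_mul_of_nonneg_left hmain hC₁.le)
    (by positivity)).trans ?_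
  rw [mul_pow, show (2 : ℝ) ^ (2 ^ j - (j + 1)) * (N : ℝ) ^ (2 ^ j - (j + 1)) *
      (C₁ * ((2 + A * (20 * (F : ℝ) + 20) * W) * ((N : ℝ) ^ ε * Y))) =
    (2 : ℝ) ^ (2 ^ j - (j + 1)) * C₁ * (2 + A * (20 * (F : ℝ) + 20) * W) *
      (N : ℝ) ^ (2 ^ j - (j + 1)) * (N : ℝ) ^ ε * Y by ring]
  refine mul_le_mul_of_nonneg_right (mul_le_mul_of_nonneg_right (mul_le_mul_of_nonneg_right
    (mul_le_mul_of_nonneg_right (mul_le_mul_of_nonneg_right
      (pow_le_pow_right₀ one_le_two (Nat.sub_le _ _)) hC₁.le) (by positivity)) (by positivity))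
    (by positivity)) hY0

end FA.SmallPowerParts

end
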