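import Fermat.Agent.SmallPowerParts.Avoid
import Fermat.Agent.SmallPowerParts.Sums
import Mathlib.NumberTheory.DiophantineApproximation.Basic
import Mathlib.Data.ZMod.Units

/-!
# Heilbronn's and Danicic's theorem

With `K = 2 ^ (k - 1)` and `H ≤ N ^ (1/K - ε)`: if every `‖α n ^ k‖` exceeds `1/H` then the sums
over the multiples `h α`, `h ≤ H`, are large, so the denominator `q` of an approximation of `α` is
at most `N ^ (1 - γ/2)`, and then `n = q` is a contradiction.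
-/

set_option autoImplicit false

noncomputable section

namespace FA.SmallPowerParts

open Finset Filter Topology
open FA.ThreePrimes (eAdd nearDist nearDist_le_abs_sub nearDist_nonneg)
open FA.WaringAsymptotic (waringSum)

/-- A denominator `q ≤ N` with `|q α - a|` small gives a small value. -/
theorem nearDist_mul_pow_le {k q : ℕ} {a : ℤ} {α d : ℝ} (hk : 1 ≤ k) (h : |α * q - a| ≤ d) :
    nearDist (α * (q : ℝ) ^ k) ≤ (q : ℝ) ^ (k - 1) * d := by
  obtain ⟨i, rfl⟩ : ∃ i, k = i + 1 := ⟨k - 1, by omega⟩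
  refine (nearDist_le_abs_sub _ (a * (q : ℤ) ^ i)).trans ?_
  rw [Nat.add_sub_cancel, show α * (q : ℝ) ^ (i + 1) - ((a * (q : ℤ) ^ i : ℤ) : ℝ) =
    (q : ℝ) ^ i * (α * q - a) by push_cast; ring, abs_mul, abs_of_nonneg (by positivity)]
  exact mul_le_mul_of_nonneg_left h (by positivity)

/-- **The core**, for large `N`. -/
theorem eventually_small {k : ℕ} (hk : 2 ≤ k) {γ : ℝ} (hγ : 0 < γ) (hγ1 : γ < 1) :
    ∀ᶠ N : ℕ in atTop, ∀ m : ℕ, 1 ≤ m →
      ((2 * m : ℕ) : ℝ) ^ 2 ^ (k - 1) ≤ (N : ℝ) ^ (1 - γ) → ∀ α : ℝ,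
        ∃ n : ℕ, 1 ≤ n ∧ n ≤ N ∧ nearDist (α * (n : ℝ) ^ k) ≤ 1 / (2 * (m : ℝ)) := by
  obtain ⟨C, hC, hsum⟩ := exists_power_sum_le hk (show 0 < γ / 4 by linarith)
  obtain ⟨j, hj⟩ : ∃ j, 2 ^ (k - 1) = j + 1 := ⟨2 ^ (k - 1) - 1, by
    have := Nat.two_pow_pos (k - 1); omega⟩
  obtain ⟨B, hB⟩ : ∃ B : ℝ, B = (60 : ℝ) ^ (j + 1) * C * 3 := ⟨_, rfl⟩
  filter_upwards [eventually_ge_atTop 2,
    ((tendsto_rpow_atTop (show 0 < γ / 4 by linarith)).comp
      tendsto_natCast_atTop_atTop).eventually (eventually_gt_atTop B)] with N hN hbig m hm hHN α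
  rw [Function.comp_apply] at hbig
  rw [hj] at hHN
  by_contra hno
  push Not at hno
  have hN1 : (1 : ℝ) ≤ N := by exact_mod_cast (show 1 ≤ N by omega)
  have hN0 : (0 : ℝ) < N := by linarith
  obtain ⟨H, hH⟩ : ∃ H : ℕ, H = 2 * m := ⟨_, rfl⟩
  rw [← hH] at hHN
  have hH1 : (1 : ℝ) ≤ H := by exact_mod_cast (show 1 ≤ H by omega)
  have hHle : (H : ℝ) ≤ N := by
    refine ((le_self_pow₀ hH1 (by omega)).trans hHN).trans ?_
    exact Real.rpow_le_self_of_one_le hN1 (by linarith)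
  -- the large sums
  have havoid := card_le_sum_of_avoid (Icc 1 N) (fun n : ℕ => α * (n : ℝ) ^ k) hm fun n hn =>
    (hno n (mem_Icc.1 hn).1 (mem_Icc.1 hn).2).le
  rw [Nat.card_Icc, Nat.add_sub_cancel, ← hH] at havoid
  have hf : ∀ h : ℕ, ∑ n ∈ Icc 1 N, eAdd ((h : ℝ) * (α * (n : ℝ) ^ k)) =
      waringSum k N ((h : ℝ) * α) := fun h => by
    simp only [waringSum, mul_assoc]
  simp only [hf] at havoid
  -- the approximation
  have hHj : (1 : ℝ) ≤ (H : ℝ) ^ j := one_le_pow₀ hH1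
  obtain ⟨W, hW⟩ : ∃ W : ℝ, W = (N : ℝ) ^ ((k : ℝ) - γ / 2) / (H : ℝ) ^ j := ⟨_, rfl⟩
  have hk2 : (2 : ℝ) ≤ k := by exact_mod_cast hk
  have hW1 : 1 ≤ W := by
    rw [hW, le_div_iff₀ (by positivity), one_mul]
    refine ((pow_le_pow_right₀ hH1 j.le_succ).trans hHN).trans
      (Real.rpow_le_rpow_of_exponent_le hN1 ?_)
    linarith
  obtain ⟨Q, hQ⟩ : ∃ Q, Q = ⌊W⌋₊ := ⟨_, rfl⟩
  have hQ0 : 0 < Q := hQ ▸ Nat.floor_pos.2 hW1
  obtain ⟨ρ, hρ, hρQ⟩ := Real.exists_rat_abs_sub_le_and_den_le α hQ0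
  obtain ⟨q, hq⟩ : ∃ q, q = ρ.den := ⟨_, rfl⟩
  have : NeZero q := ⟨hq ▸ ρ.den_ne_zero⟩
  have hq0 : (0 : ℝ) < q := Nat.cast_pos.2 (NeZero.pos q)
  rw [show (ρ : ℝ) = (ρ.num : ℝ) / q by rw [hq, Rat.cast_def], ← hq] at hρ
  rw [← hq] at hρQ
  have hunit : IsUnit (ρ.num : ZMod q) := by
    rw [ZMod.coe_int_isUnit_iff_isCoprime, isCoprime_comm, Int.isCoprime_iff_nat_coprime, hq]
    simpa using ρ.reduced
  have hqW : (q : ℝ) ≤ W := (Nat.cast_le.2 hρQ).trans (hQ ▸ Nat.floor_le (by linarith))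
  have hQW : W < (Q : ℝ) + 1 := hQ ▸ Nat.lt_floor_add_one _
  have hqa : |α * q - ρ.num| ≤ (H : ℝ) ^ j / (N : ℝ) ^ ((k : ℝ) - γ / 2) := by
    rw [show α * q - ρ.num = (α - ρ.num / q) * q by field_simp, abs_mul, Nat.abs_cast]
    refine (mul_le_mul_of_nonneg_right hρ hq0.le).trans ?_
    rw [div_mul_eq_mul_div, one_mul, mul_comm ((Q : ℝ) + 1) (q : ℝ), ← div_div, div_self hq0.ne',
      show (H : ℝ) ^ j / (N : ℝ) ^ ((k : ℝ) - γ / 2) = 1 / W by rw [hW, one_div_div]]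
    exact one_div_le_one_div_of_le (by linarith) hQW.le
  rcases le_or_gt (q : ℝ) ((N : ℝ) ^ (1 - γ / 2)) with hsmall | hlarge
  · have hqN : (q : ℝ) ≤ N := hsmall.trans (Real.rpow_le_self_of_one_le hN1 (by linarith))
    refine absurd (hno q (NeZero.pos q) (Nat.cast_le.1 hqN)) (not_lt.2 ?_)
    refine (nearDist_mul_pow_le (by omega) hqa).trans ?_
    rw [show 1 / (2 * (m : ℝ)) = 1 / (H : ℝ) by rw [hH]; push_cast; rfl]
    refine (mul_le_mul_of_nonneg_right (pow_le_pow_left₀ hq0.le hsmall _) (by positivity)).trans ?_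
    rw [mul_div_assoc', div_le_div_iff₀ (by positivity) (by linarith), one_mul, mul_assoc,
      ← pow_succ, ← Real.rpow_natCast ((N : ℝ) ^ _) (k - 1), ← Real.rpow_mul hN0.le]
    refine (mul_le_mul_of_nonneg_left hHN (by positivity)).trans ?_
    rw [← Real.rpow_add hN0]
    refine Real.rpow_le_rpow_of_exponent_le hN1 ?_
    rw [Nat.cast_sub (show 1 ≤ k by omega), Nat.cast_one]
    have := mul_le_mul_of_nonneg_left hk2 (show (0 : ℝ) ≤ γ / 2 by linarith)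
    linarith
  · have hqNk : q ≤ N ^ k := by
      rw [← Nat.cast_le (α := ℝ)]
      refine hqW.trans ?_
      rw [hW, div_le_iff₀ (by positivity)]
      refine le_trans ?_ (le_mul_of_one_le_right (by positivity) hHj)
      rw [Nat.cast_pow, ← Real.rpow_natCast]
      exact Real.rpow_le_rpow_of_exponent_le hN1 (by linarith)
    have happ : |α - ρ.num / q| ≤ 1 / (q : ℝ) ^ 2 := by
      refine hρ.trans (one_div_le_one_div_of_le (by positivity) ?_)
      rw [sq]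
      refine mul_le_mul_of_nonneg_right ?_ hq0.le
      have : (q : ℝ) ≤ Q := Nat.cast_le.2 hρQ
      linarith
    have hpower := hsum N H q ρ.num α (by omega) (Nat.cast_le.1 hHle) hqNk hunit happ
    rw [hj] at hpower
    have hholder := pow_sum_le_card_mul_sum_pow (s := Icc 1 H)
      (f := fun h : ℕ => ‖waringSum k N ((h : ℝ) * α)‖) (fun h _ => norm_nonneg _) j
    rw [Nat.card_Icc, Nat.add_sub_cancel] at hholder
    have h1 := (pow_le_pow_left₀ (Nat.cast_nonneg N) havoid (j + 1))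
    rw [mul_pow] at h1
    have h2 := h1.trans (mul_le_mul_of_nonneg_left
      (hholder.trans (mul_le_mul_of_nonneg_left hpower (by positivity))) (by positivity))
    have hkj : k ≤ j + 1 := by
      rw [← hj]
      have := Nat.lt_two_pow_self (n := k - 1)
      omega
    have hHk : (H : ℝ) ^ j * (H * (N : ℝ) ^ (k - 1) + H * (N : ℝ) ^ k / q + q) ≤
        3 * (N : ℝ) ^ ((k : ℝ) - γ / 2) := by
      have t1 : (H : ℝ) ^ j * (H * (N : ℝ) ^ (k - 1)) ≤ (N : ℝ) ^ ((k : ℝ) - γ / 2) := by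
        rw [← mul_assoc, ← pow_succ, ← Real.rpow_natCast (N : ℝ) (k - 1)]
        refine (mul_le_mul_of_nonneg_right hHN (by positivity)).trans ?_
        rw [← Real.rpow_add hN0]
        refine Real.rpow_le_rpow_of_exponent_le hN1 ?_
        rw [Nat.cast_sub (show 1 ≤ k by omega), Nat.cast_one]
        linarith
      have t2 : (H : ℝ) ^ j * (H * (N : ℝ) ^ k / q) ≤ (N : ℝ) ^ ((k : ℝ) - γ / 2) := by
        rw [mul_div_assoc', ← mul_assoc, ← pow_succ, div_le_iff₀ hq0]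
        refine le_trans ?_ (mul_le_mul_of_nonneg_left hlarge.le (by positivity))
        refine (mul_le_mul_of_nonneg_right hHN (by positivity)).trans (le_of_eq ?_)
        rw [← Real.rpow_natCast (N : ℝ) k, ← Real.rpow_add hN0, ← Real.rpow_add hN0]
        congr 1
        ring
      have t3 : (H : ℝ) ^ j * q ≤ (N : ℝ) ^ ((k : ℝ) - γ / 2) := by
        refine (mul_le_mul_of_nonneg_left hqW (by positivity)).trans (le_of_eq ?_)
        rw [hW, mul_div_cancel₀ _ (by positivity)]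
      rw [mul_add, mul_add]
      linarith
    have h3 : (N : ℝ) ^ (j + 1) ≤ B * (N : ℝ) ^ (-(γ / 4)) * (N : ℝ) ^ (j + 1) := by
      refine h2.trans ?_
      rw [show (60 : ℝ) ^ (j + 1) * ((H : ℝ) ^ j * (C * (N : ℝ) ^ (j + 1 - k) * (N : ℝ) ^ (γ / 4) *
        (H * (N : ℝ) ^ (k - 1) + H * (N : ℝ) ^ k / q + q))) = (60 : ℝ) ^ (j + 1) * C *
          ((N : ℝ) ^ (j + 1 - k) * (N : ℝ) ^ (γ / 4)) *
          ((H : ℝ) ^ j * (H * (N : ℝ) ^ (k - 1) + H * (N : ℝ) ^ k / q + q)) by ring]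
      refine (mul_le_mul_of_nonneg_left hHk (by positivity)).trans (le_of_eq ?_)
      have e : (N : ℝ) ^ (j + 1 - k) * (N : ℝ) ^ (γ / 4) * (N : ℝ) ^ ((k : ℝ) - γ / 2) =
          (N : ℝ) ^ (-(γ / 4)) * (N : ℝ) ^ (j + 1) := by
        rw [← Real.rpow_natCast, ← Real.rpow_natCast, ← Real.rpow_add hN0, ← Real.rpow_add hN0,
          ← Real.rpow_add hN0, Nat.cast_sub hkj]
        congr 1
        ring
      rw [hB]
      linear_combination (60 : ℝ) ^ (j + 1) * C * 3 * e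
    have h4 : B * (N : ℝ) ^ (-(γ / 4)) < 1 := by
      rw [Real.rpow_neg hN0.le, ← div_eq_mul_inv, div_lt_one (by positivity)]
      exact hbig
    have h5 := mul_lt_mul_of_pos_right h4 (pow_pos hN0 (j + 1))
    linarith

/-- **Small values of `α n ^ k` modulo one.** -/
theorem exists_small {k : ℕ} (hk : 2 ≤ k) {ε : ℝ} (hε : 0 < ε) : ∃ C : ℝ, 0 < C ∧
    ∀ (α : ℝ) (N : ℕ), 1 ≤ N → ∃ n : ℕ, 1 ≤ n ∧ n ≤ N ∧
      nearDist (α * (n : ℝ) ^ k) ≤ C * (N : ℝ) ^ (-(1 / (2 : ℝ) ^ (k - 1)) + ε) := by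
  obtain ⟨K, hK⟩ : ∃ K : ℝ, K = (2 : ℝ) ^ (k - 1) := ⟨_, rfl⟩
  have hK1 : 1 ≤ K := hK ▸ one_le_pow₀ one_le_two
  rw [← hK]
  rcases le_or_gt (1 / K) ε with hbig | hsmall
  · refine ⟨1, one_pos, fun α N hN => ⟨1, le_rfl, hN, ?_⟩⟩
    rw [one_mul]
    refine le_trans ((abs_sub_round _).trans (by norm_num)) (Real.one_le_rpow
      (by exact_mod_cast hN) (by linarith))
  obtain ⟨g, hg⟩ : ∃ g, g = 1 / K - ε := ⟨_, rfl⟩
  have hg0 : 0 < g := by linarith
  rw [show -(1 / K) + ε = -g by linarith]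
  have hγ : K * ε < 1 := by
    have := mul_lt_mul_of_pos_left hsmall (show 0 < K by linarith)
    rwa [mul_one_div_cancel (by linarith)] at this
  obtain ⟨N₀, hN₀⟩ := eventually_atTop.1
    ((eventually_small hk (by positivity : 0 < K * ε) hγ).and
      (((tendsto_rpow_atTop hg0).comp tendsto_natCast_atTop_atTop).eventually
        (eventually_ge_atTop 4)))
  refine ⟨(N₀ : ℝ) + 2, by positivity, fun α N hN => ?_⟩
  have hN1 : (1 : ℝ) ≤ N := by exact_mod_cast hN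
  have hX0 : 0 < (N : ℝ) ^ g := by positivity
  rcases Nat.lt_or_ge N N₀ with hlt | hge
  · refine ⟨1, le_rfl, hN, le_trans ((abs_sub_round _).trans (by norm_num : (1 / 2 : ℝ) ≤ 1)) ?_⟩
    rw [Real.rpow_neg (by linarith), ← div_eq_mul_inv, one_le_div hX0]
    have hg1 : g ≤ 1 := by
      have : 1 / K ≤ 1 := (div_le_one (by linarith)).2 hK1
      linarith
    refine (Real.rpow_le_self_of_one_le hN1 hg1).trans ?_
    have : (N : ℝ) ≤ N₀ := Nat.cast_le.2 hlt.le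
    linarith
  · obtain ⟨hmain, hX4⟩ := hN₀ N hge
    rw [Function.comp_apply] at hX4
    obtain ⟨m, hm⟩ : ∃ m, m = ⌊(N : ℝ) ^ g / 2⌋₊ := ⟨_, rfl⟩
    have hm1 : 1 ≤ m := hm ▸ Nat.le_floor (by push_cast; linarith)
    have hmle : (m : ℝ) ≤ (N : ℝ) ^ g / 2 := hm ▸ Nat.floor_le (by positivity)
    have hmlt : (N : ℝ) ^ g / 2 < m + 1 := hm ▸ Nat.lt_floor_add_one _
    have hpow : ((2 * m : ℕ) : ℝ) ^ 2 ^ (k - 1) ≤ (N : ℝ) ^ (1 - K * ε) := by
      refine (pow_le_pow_left₀ (Nat.cast_nonneg _) (show ((2 * m : ℕ) : ℝ) ≤ (N : ℝ) ^ g by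
        push_cast; linarith) _).trans (le_of_eq ?_)
      rw [← Real.rpow_natCast, ← Real.rpow_mul (by linarith), Nat.cast_pow, Nat.cast_ofNat, ← hK,
        hg, sub_mul, one_div_mul_cancel (by linarith), mul_comm ε]
    obtain ⟨n, hn1, hnN, hn⟩ := hmain m hm1 hpow α
    refine ⟨n, hn1, hnN, hn.trans ?_⟩
    have hm1' : (1 : ℝ) ≤ m := by exact_mod_cast hm1
    rw [Real.rpow_neg (by linarith), ← div_eq_mul_inv,
      div_le_div_iff₀ (by linarith) hX0, one_mul]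
    have := mul_le_mul_of_nonneg_right (show (2 : ℝ) ≤ N₀ + 2 by linarith
      [(Nat.cast_nonneg N₀ : (0 : ℝ) ≤ N₀)]) (show (0 : ℝ) ≤ 2 * m by linarith)
    linarith

end FA.SmallPowerParts

end
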